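import Mathlib
import Fermat.Prelude.Def_AlgebraicCurve_DivisorPushPull
import Fermat.Agent.S24.FFBasic
import Fermat.Agent.S24.FFOrdLike
import Fermat.Agent.S24.FFIdentity
import Fermat.Agent.Lib.RR.Ord

/-!
# Lib/FFSep — relative theory of places for a finite SEPARABLE extension `F'/F` of function
fields, in ANY characteristic (helper519; port of helper398's `Lib/FF398/Local.lean`, where the
hypothesis `CharZero F` is replaced by `Algebra.IsSeparable F F'`)

For a place `v` of `F` and a finite separable extension `F'/F` we use the integral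
closure `S` of `O_v` in `F'` (a semi-local Dedekind domain) as a dictionary:
places of `F'` over `v`  ↔  height-one primes of `S`.

Main results of this file (helper398):
* `placeOf v q` : the place of `F'` attached to a height one prime `q` of `S`;
* `restrict_placeOf`, `exists_placeOf_eq`, `placeOf_injective` : the dictionary;
* `ord_placeOf` : `ord` of `placeOf v q` is the `q`-adic valuation.
-/

set_option autoImplicit false
set_option linter.unusedSectionVars false

open AlgebraicCurve IsDedekindDomain

namespace Fermat.Agent.Lib.FFSep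

section Max

variable {K F : Type*} [Field K] [Field F] [Algebra K F]

/-- Discrete valuation rings are maximal subrings: comparable places are equal. -/
theorem place_eq_of_le {v w : Place K F} (h : v.toValuationSubring ≤ w.toValuationSubring) :
    v = w :=
  Place.ext (ValuationSubring.eq_of_le_of_ne_top _ h w.ne_top')

end Max

section Local

variable {K F F' : Type*} [Field K] [Field F] [Field F'] [Algebra K F] [Algebra K F']
  [Algebra F F'] [IsScalarTower K F F'] [FiniteDimensional F F'] [Algebra.IsSeparable F F']
variable (v : Place K F)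

variable (F') in
/-- The integral closure of `O_v` in `F'`. -/
abbrev intCl : Subalgebra v.toValuationSubring F' := integralClosure v.toValuationSubring F'

omit [Algebra K F'] [IsScalarTower K F F'] [FiniteDimensional F F'] [Algebra.IsSeparable F F'] in
theorem algebraMap_OF'_injective :
    Function.Injective (algebraMap v.toValuationSubring F') := by
  intro a b h
  apply Subtype.ext
  exact (algebraMap F F').injective h

instance (priority := 2000) instFaithfulOF' : FaithfulSMul v.toValuationSubring F' :=
  (faithfulSMul_iff_algebraMap_injective _ _).mpr (algebraMap_OF'_injective v)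

instance (priority := 2000) instTorsionFreeOF' :
    Module.IsTorsionFree v.toValuationSubring F' :=
  FaithfulSMul.to_isTorsionFree _ _

instance (priority := 2000) instTorsionFreeIntCl :
    Module.IsTorsionFree v.toValuationSubring (intCl F' v) :=
  Subalgebra.instIsTorsionFree (intCl F' v)

instance instTowerKOF' : IsScalarTower K v.toValuationSubring F' :=
  IsScalarTower.of_algebraMap_eq fun a => by
    show algebraMap K F' a = algebraMap F F' (algebraMap K F a)
    rw [← IsScalarTower.algebraMap_apply]

instance instDedekindIntCl : IsDedekindDomain (intCl F' v) :=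
  integralClosure.isDedekindDomain v.toValuationSubring F F'

instance instFracIntCl : IsFractionRing (intCl F' v) F' :=
  IsIntegralClosure.isFractionRing_of_finite_extension v.toValuationSubring F F' (intCl F' v)

instance instFiniteIntCl : Module.Finite v.toValuationSubring (intCl F' v) :=
  IsIntegralClosure.finite v.toValuationSubring F F' (intCl F' v)

instance instFreeIntCl : Module.Free v.toValuationSubring (intCl F' v) :=
  Module.free_of_finite_type_torsion_free'

/-- The place of `F'` attached to a height-one prime of the integral closure of `O_v`. -/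
noncomputable def placeOf (q : HeightOneSpectrum (intCl F' v)) : Place K F' :=
  Place.ofHeightOneSpectrum (K := K) q

theorem placeOf_toValuationSubring (q : HeightOneSpectrum (intCl F' v)) :
    (placeOf v q).toValuationSubring = (q.valuation F').valuationSubring := rfl

theorem mem_placeOf_iff (q : HeightOneSpectrum (intCl F' v)) (g : F') :
    g ∈ (placeOf v q).toValuationSubring ↔ q.valuation F' g ≤ 1 := Iff.rfl

/-- `placeOf v q` lies over `v`. -/
theorem restrict_placeOf (q : HeightOneSpectrum (intCl F' v)) :
    (placeOf v q).restrict F = v := by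
  symm
  apply place_eq_of_le
  intro a ha
  rw [Place.restrict_toValuationSubring, ValuationSubring.mem_comap, mem_placeOf_iff]
  have : algebraMap F F' a = algebraMap (intCl F' v) F'
      (algebraMap v.toValuationSubring (intCl F' v) ⟨a, ha⟩) := rfl
  rw [this]
  exact q.valuation_le_one _

/-- The order function of `placeOf v q` is the `q`-adic valuation. -/
theorem ord_placeOf (q : HeightOneSpectrum (intCl F' v)) (g : F') :
    (placeOf v q).ord g = -(WithZero.log (q.valuation F' g)) := by
  rcases eq_or_ne g 0 with rfl | hg
  · simp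
  symm
  obtain ⟨π, hπ⟩ := q.valuation_exists_uniformizer F'
  have hπ0 : π ≠ 0 := by
    rintro rfl
    rw [map_zero] at hπ
    exact WithZero.exp_ne_zero hπ.symm
  refine Fermat.Agent.S24.FF.ordLike_eq_ord (fun g => -(WithZero.log (q.valuation F' g)))
    (fun f g hf hg => ?_) (placeOf v q) (fun f hf => ?_) hπ0 ?_ hg
  · rw [map_mul, WithZero.log_mul ((Valuation.ne_zero_iff _).mpr hf)
      ((Valuation.ne_zero_iff _).mpr hg)]
    ring
  · rw [mem_placeOf_iff, neg_nonneg,
      WithZero.log_le_iff_le_exp ((Valuation.ne_zero_iff _).mpr hf)]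
    rfl
  · rw [hπ, WithZero.log_exp]
    ring

/-- Membership in a height-one prime, read off from the valuation subring. -/
theorem mem_asIdeal_iff (q : HeightOneSpectrum (intCl F' v)) (s : intCl F' v) :
    s ∈ q.asIdeal ↔ s = 0 ∨ ((s : F'))⁻¹ ∉ (placeOf v q).toValuationSubring := by
  rw [mem_placeOf_iff, ← q.valuation_lt_one_iff_mem (K := F')]
  show q.valuation F' (s : F') < 1 ↔ s = 0 ∨ ¬ q.valuation F' ((s : F'))⁻¹ ≤ 1
  rcases eq_or_ne s 0 with rfl | hs
  · simp
  have hs' : (s : F') ≠ 0 := fun h => hs (Subtype.ext h)
  have hv0 : q.valuation F' (s : F') ≠ 0 := (Valuation.ne_zero_iff _).mpr hs'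
  rw [map_inv₀, not_le, one_lt_inv₀ (zero_lt_iff.mpr hv0)]
  simp [hs]

theorem placeOf_injective : Function.Injective (placeOf (F' := F') v) := by
  intro q q' h
  apply HeightOneSpectrum.ext
  ext s
  rw [mem_asIdeal_iff, mem_asIdeal_iff, h]

/-- The integral closure of `O_{w|F}` is contained in `O_w`. -/
theorem coe_intCl_mem (w : Place K F') (s : intCl F' (w.restrict F)) :
    (s : F') ∈ w.toValuationSubring := by
  obtain ⟨p, hp, hps⟩ := s.2
  have hint : IsIntegral w.toValuationSubring (s : F') := by
    refine ⟨p.map (Place.restrictInclusion F w), hp.map _, ?_⟩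
    rw [Polynomial.eval₂_map]
    exact hps
  obtain ⟨y, hy⟩ := IsIntegrallyClosed.isIntegral_iff.mp hint
  rw [← hy]
  exact y.2

/-- The inclusion of the integral closure of `O_{w|F}` into `O_w`. -/
def intClInclusion (w : Place K F') : intCl F' (w.restrict F) →+* w.toValuationSubring where
  toFun s := ⟨(s : F'), coe_intCl_mem w s⟩
  map_one' := rfl
  map_mul' _ _ := rfl
  map_zero' := rfl
  map_add' _ _ := rfl

@[simp]
theorem coe_intClInclusion (w : Place K F') (s : intCl F' (w.restrict F)) :
    ((intClInclusion w s : w.toValuationSubring) : F') = (s : F') := rfl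

/-- The centre of `w` on the integral closure of `O_{w|F}`. -/
def centre (w : Place K F') : Ideal (intCl F' (w.restrict F)) :=
  Ideal.comap (intClInclusion w) (IsLocalRing.maximalIdeal w.toValuationSubring)

instance centre_isPrime (w : Place K F') : (centre (F := F) w).IsPrime :=
  Ideal.comap_isPrime _ _

theorem centre_ne_bot (w : Place K F') : centre (F := F) w ≠ ⊥ := by
  obtain ⟨π, hπ⟩ := IsDiscreteValuationRing.exists_irreducible (w.restrict F).toValuationSubring
  intro h
  have hmem : algebraMap (w.restrict F).toValuationSubring (intCl F' (w.restrict F)) π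
      ∈ centre (F := F) w := by
    rw [centre, Ideal.mem_comap, IsLocalRing.mem_maximalIdeal, mem_nonunits_iff]
    intro hu
    have hu' : IsUnit (Place.restrictInclusion F w π) := hu
    exact hπ.not_isUnit (isUnit_of_map_unit (Place.restrictInclusion F w) π hu')
  rw [h, Ideal.mem_bot] at hmem
  have hinj : Function.Injective
      (algebraMap (w.restrict F).toValuationSubring (intCl F' (w.restrict F))) :=
    FaithfulSMul.algebraMap_injective _ _
  exact hπ.ne_zero (hinj (by rw [hmem, map_zero]))

/-- The centre of `w` as a height-one prime. -/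
def centrePrime (w : Place K F') : HeightOneSpectrum (intCl F' (w.restrict F)) :=
  ⟨centre w, centre_isPrime w, centre_ne_bot w⟩

theorem placeOf_centrePrime (w : Place K F') : placeOf (w.restrict F) (centrePrime w) = w := by
  apply place_eq_of_le
  intro g hg
  rw [mem_placeOf_iff] at hg
  obtain ⟨n, d, hnd⟩ := (centrePrime w).exists_primeCompl_mul_eq_of_integer g hg
  have hd : (d : intCl F' (w.restrict F)) ∉ centre (F := F) w := d.2
  rw [centre, Ideal.mem_comap, IsLocalRing.mem_maximalIdeal, mem_nonunits_iff, not_not] at hd
  obtain ⟨b, hb⟩ := isUnit_iff_exists_inv.mp hd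
  have hb' : ((d : intCl F' (w.restrict F)) : F') * (b : F') = 1 := congrArg Subtype.val hb
  have hd0 : ((d : intCl F' (w.restrict F)) : F') ≠ 0 := left_ne_zero_of_mul_eq_one hb'
  have hg' : g = ((n : F')) * (b : F') := by
    have h1 : g * ((d : intCl F' (w.restrict F)) : F') = (n : F') := hnd
    calc g = g * (((d : intCl F' (w.restrict F)) : F') * (b : F')) := by rw [hb', mul_one]
      _ = (n : F') * (b : F') := by rw [← mul_assoc, h1]
  rw [hg']
  exact mul_mem (coe_intCl_mem w n) b.2

/-- Every place of `F'` over `v` comes from a height-one prime of the integral closure. -/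
theorem exists_placeOf_eq (w : Place K F') (hw : w.restrict F = v) :
    ∃ q : HeightOneSpectrum (intCl F' v), placeOf v q = w := by
  subst hw
  exact ⟨centrePrime w, placeOf_centrePrime w⟩

theorem range_placeOf : Set.range (placeOf (F' := F') v) = {w : Place K F' | w.restrict F = v} := by
  ext w
  constructor
  · rintro ⟨q, rfl⟩
    exact restrict_placeOf v q
  · intro hw
    exact exists_placeOf_eq v w hw

/-! ### Primes over the maximal ideal of `O_v` -/

/-- The maximal ideal of `O_v`. -/
abbrev pv : Ideal v.toValuationSubring := IsLocalRing.maximalIdeal v.toValuationSubring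

theorem pv_ne_bot : pv v ≠ ⊥ := IsDiscreteValuationRing.not_a_field _

theorem algebraMap_O_intCl_injective :
    Function.Injective (algebraMap v.toValuationSubring (intCl F' v)) :=
  FaithfulSMul.algebraMap_injective _ _

theorem map_pv_ne_bot : (pv v).map (algebraMap v.toValuationSubring (intCl F' v)) ≠ ⊥ := by
  rw [Ne, Ideal.map_eq_bot_iff_of_injective (algebraMap_O_intCl_injective v)]
  exact pv_ne_bot v

instance liesOver_pv (q : HeightOneSpectrum (intCl F' v)) : q.asIdeal.LiesOver (pv v) := by
  constructor
  have hprime : (q.asIdeal.under v.toValuationSubring).IsPrime := Ideal.IsPrime.under _ _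
  have hne : q.asIdeal.under v.toValuationSubring ≠ ⊥ :=
    Ideal.under_ne_bot v.toValuationSubring q.ne_bot
  have hmax : (q.asIdeal.under v.toValuationSubring).IsMaximal := hprime.isMaximal hne
  exact (IsLocalRing.eq_maximalIdeal hmax).symm

instance isMaximal_asIdeal (q : HeightOneSpectrum (intCl F' v)) : q.asIdeal.IsMaximal :=
  q.isPrime.isMaximal q.ne_bot

/-- The height-one prime attached to a prime over `𝔪_v`. -/
def primeOfOver (q : (pv v).primesOver (intCl F' v)) : HeightOneSpectrum (intCl F' v) :=
  ⟨q.1, q.2.1, by
    have := q.2.2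
    exact Ideal.ne_bot_of_liesOver_of_ne_bot (pv_ne_bot v) q.1⟩

@[simp]
theorem primeOfOver_asIdeal (q : (pv v).primesOver (intCl F' v)) :
    (primeOfOver v q).asIdeal = q.1 := rfl

theorem primeOfOver_injective : Function.Injective (primeOfOver (F' := F') v) := by
  intro q q' h
  apply Subtype.ext
  exact congrArg HeightOneSpectrum.asIdeal h

theorem primeOfOver_surjective : Function.Surjective (primeOfOver (F' := F') v) := by
  intro q
  exact ⟨⟨q.asIdeal, q.isPrime, liesOver_pv v q⟩, rfl⟩

instance finite_primesOver : Finite ((pv v).primesOver (intCl F' v)) :=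
  (Algebra.QuasiFinite.finite_primesOver (pv v)).to_subtype

instance finite_heightOneSpectrum : Finite (HeightOneSpectrum (intCl F' v)) :=
  Finite.of_surjective _ (primeOfOver_surjective v)

/-- The fibre over `v` is finite (no `HasPrincipalDivisors` needed). -/
theorem finite_fibre : {w : Place K F' | w.restrict F = v}.Finite := by
  rw [← range_placeOf]
  exact Set.finite_range _

/-! ### Ramification index and residue degree -/

theorem mem_asIdeal_iff_ord (q : HeightOneSpectrum (intCl F' v)) (s : intCl F' v) :
    s ∈ q.asIdeal ↔ s = 0 ∨ 0 < (placeOf v q).ord (s : F') := by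
  rcases eq_or_ne s 0 with rfl | hs
  · simp
  have hs' : (s : F') ≠ 0 := fun h => hs (Subtype.ext h)
  have hv0 : q.valuation F' (s : F') ≠ 0 := (Valuation.ne_zero_iff _).mpr hs'
  rw [ord_placeOf, neg_pos, WithZero.log_lt_iff_lt_exp hv0, ← q.valuation_lt_one_iff_mem (K := F')]
  simp only [hs, false_or]
  rfl

theorem ord_placeOf_coe_nonneg (q : HeightOneSpectrum (intCl F' v)) (s : intCl F' v) :
    0 ≤ (placeOf v q).ord (s : F') :=
  (Fermat.Agent.S24.FF.mem_iff_ord_nonneg _).mp
    ((mem_placeOf_iff v q _).mpr (q.valuation_le_one s))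

/-- The ramification index of `placeOf v q` (in the sense of the Prelude) is Mathlib's
ramification index of `q` over `O_v`. -/
theorem ramificationIndex_placeOf (q : HeightOneSpectrum (intCl F' v)) :
    ((placeOf v q).ramificationIndex F : ℤ)
      = (q.asIdeal.ramificationIdx v.toValuationSubring : ℤ) := by
  obtain ⟨π, hπ, hπ1⟩ := Fermat.Agent.S24.FF.exists_irreducible_coe v
  have h1 := (placeOf v q).ord_restrict (F := F) (π : F)
  rw [restrict_placeOf, hπ1, mul_one] at h1
  rw [← h1, ord_placeOf]
  have hπS : algebraMap v.toValuationSubring (intCl F' v) π ≠ 0 := fun h =>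
    hπ.ne_zero (algebraMap_O_intCl_injective v (by rw [h, map_zero]))
  have h2 : q.valuation F' (algebraMap F F' (π : F))
      = q.intValuation (algebraMap v.toValuationSubring (intCl F' v) π) :=
    q.valuation_of_algebraMap (algebraMap v.toValuationSubring (intCl F' v) π)
  rw [h2, q.intValuation_eq_exp_neg_multiplicity hπS, WithZero.log_exp, neg_neg,
    Ideal.IsDedekindDomain.ramificationIdx_eq_multiplicity (pv v) q.asIdeal (map_pv_ne_bot v)]
  have h3 : (pv v).map (algebraMap v.toValuationSubring (intCl F' v))
      = Ideal.span {algebraMap v.toValuationSubring (intCl F' v) π} := by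
    rw [pv, hπ.maximalIdeal_eq, Ideal.map_span, Set.image_singleton]
  rw [h3]

/-- If all places of `F'` have degree one, residue degrees over `O_v` are one. -/
theorem inertiaDeg_intCl_eq_one (hdeg' : ∀ w : Place K F', w.deg = 1)
    (q : HeightOneSpectrum (intCl F' v)) :
    q.asIdeal.inertiaDeg v.toValuationSubring = 1 := by
  refine Fermat.Agent.S24.FF.inertiaDeg_eq_one_of_forall_exists (pv v) q.asIdeal fun s => ?_
  obtain ⟨c, hc⟩ := Fermat.Agent.Lib.RR.exists_const_sub (placeOf v q) (hdeg' _)
    (ord_placeOf_coe_nonneg v q s)
  refine ⟨algebraMap K v.toValuationSubring c, ?_⟩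
  rw [mem_asIdeal_iff_ord]
  have hcoe : ((s - algebraMap v.toValuationSubring (intCl F' v)
      (algebraMap K v.toValuationSubring c) : intCl F' v) : F') = (s : F') - algebraMap K F' c := by
    rw [IsScalarTower.algebraMap_apply K F F']
    rfl
  rcases hc with hc | hc
  · left
    apply Subtype.ext
    rw [hcoe]
    exact hc
  · right
    rw [hcoe]
    exact hc

omit [Algebra.IsSeparable F F'] [FiniteDimensional F F'] in
/-- If all places of `F'` have degree one, the Prelude's residue degrees are one. -/
theorem inertiaDeg_eq_one [Algebra.IsIntegral F F'] (hdeg' : ∀ w : Place K F', w.deg = 1)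
    (w : Place K F') : w.inertiaDeg F = 1 := by
  have h := w.deg_restrict_mul_inertiaDeg (F := F)
  rw [hdeg' w] at h
  exact (mul_eq_one.mp h).2

omit [Algebra.IsSeparable F F'] [FiniteDimensional F F'] in
theorem deg_restrict_eq_one [Algebra.IsIntegral F F'] (hdeg' : ∀ w : Place K F', w.deg = 1)
    (w : Place K F') : (w.restrict F).deg = 1 := by
  have h := w.deg_restrict_mul_inertiaDeg (F := F)
  rw [hdeg' w] at h
  exact (mul_eq_one.mp h).1

/-- **Local fundamental identity** `∑_{w | v} e(w|v) = [F' : F]`. -/
theorem sum_ramificationIndex (hdeg' : ∀ w : Place K F', w.deg = 1)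
    (s : Finset (Place K F')) (hs : ∀ w, w ∈ s ↔ w.restrict F = v) :
    ∑ w ∈ s, (w.ramificationIndex F : ℤ) = (Module.finrank F F' : ℤ) := by
  let _ : Fintype ((pv v).primesOver (intCl F' v)) := Fintype.ofFinite _
  have h := Ideal.sum_ramification_inertia_eq_finrank (pv v) (intCl F' v)
  rw [IsFractionRing.finrank_eq v.toValuationSubring F (intCl F' v) F', ← h]
  push_cast
  symm
  refine Finset.sum_bij (fun q _ => placeOf v (primeOfOver v q)) ?_ ?_ ?_ ?_
  · intro q _
    exact (hs _).mpr (restrict_placeOf v _)
  · intro q _ q' _ h
    exact primeOfOver_injective v (placeOf_injective v h)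
  · intro w hw
    obtain ⟨q, hq⟩ := exists_placeOf_eq v w ((hs w).mp hw)
    obtain ⟨q', rfl⟩ := primeOfOver_surjective v q
    exact ⟨q', Finset.mem_univ _, hq⟩
  · intro q _
    have h1 := inertiaDeg_intCl_eq_one v hdeg' (primeOfOver v q)
    rw [primeOfOver_asIdeal] at h1
    rw [ramificationIndex_placeOf, primeOfOver_asIdeal, h1]
    simp

/-! ### Norm formula -/

open UniqueFactorizationMonoid

theorem ord_coe_eq_multiplicity (a : v.toValuationSubring) (ha : a ≠ 0) :
    v.ord (a : F) = (multiplicity (pv v) (Ideal.span {a}) : ℤ) := by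
  rw [Place.ord, v.adicValuation_coe, v.heightOneSpectrum.intValuation_eq_exp_neg_multiplicity ha,
    WithZero.log_exp, neg_neg]
  rfl

theorem ord_placeOf_coe_eq_multiplicity (q : HeightOneSpectrum (intCl F' v)) (x : intCl F' v)
    (hx : x ≠ 0) :
    (placeOf v q).ord (x : F') = (multiplicity q.asIdeal (Ideal.span {x}) : ℤ) := by
  rw [ord_placeOf]
  have h2 : q.valuation F' (x : F') = q.intValuation x := q.valuation_of_algebraMap x
  rw [h2, q.intValuation_eq_exp_neg_multiplicity hx, WithZero.log_exp, neg_neg]

theorem multiplicity_eq_count (q : HeightOneSpectrum (intCl F' v)) (I : Ideal (intCl F' v))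
    (hI : I ≠ ⊥) :
    multiplicity q.asIdeal I = (normalizedFactors I).count q.asIdeal := by
  have hq : Prime q.asIdeal := Ideal.prime_of_isPrime q.ne_bot q.isPrime
  rw [multiplicity_eq_of_emultiplicity_eq_some
    (emultiplicity_eq_count_normalizedFactors hq.irreducible hI), normalize_eq]

theorem sum_count_eq_card [Fintype (HeightOneSpectrum (intCl F' v))] (I : Ideal (intCl F' v))
    (hI : I ≠ ⊥) :
    ∑ q : HeightOneSpectrum (intCl F' v), (normalizedFactors I).count q.asIdeal
      = Multiset.card (normalizedFactors I) := by
  classical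
  rw [← Multiset.toFinset_sum_count_eq]
  have hinj : Function.Injective
      (fun q : HeightOneSpectrum (intCl F' v) => q.asIdeal) := fun q q' h =>
    HeightOneSpectrum.ext h
  rw [← Finset.sum_image (s := Finset.univ)
    (f := fun P : Ideal (intCl F' v) => (normalizedFactors I).count P)
    (g := fun q : HeightOneSpectrum (intCl F' v) => q.asIdeal) (fun q _ q' _ h => hinj h)]
  symm
  refine Finset.sum_subset ?_ ?_
  · intro P hP
    rw [Multiset.mem_toFinset, Ideal.mem_normalizedFactors_iff hI] at hP
    have hPne : P ≠ ⊥ := fun h => hI (le_bot_iff.mp (h ▸ hP.2))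
    exact Finset.mem_image.mpr ⟨⟨P, hP.1, hPne⟩, Finset.mem_univ _, rfl⟩
  · intro P _ hP
    rw [Multiset.mem_toFinset] at hP
    exact Multiset.count_eq_zero_of_notMem hP

end Local

end Fermat.Agent.Lib.FFSep
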