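import Fermat.Agent.Lib.FFSep.Local
import Fermat.Agent.S37.H577.DedekindCount

/-!
# Lib/FFSep — the local norm formula `∑_{w | v} ord_w(g) = ord_v(N_{F'/F} g)` for a finite
SEPARABLE extension of function fields, in ANY characteristic (helper519)

Mathlib's `Ideal.relNorm_eq_pow_of_isMaximal` needs a perfect base field, which fails for function
fields in characteristic `ℓ`.  We count `dim_K S ⧸ (x)` in two ways instead
(`S37.H577.finrank_quotient_eq_card` and Mathlib's Smith normal form
`associated_norm_prod_smith`).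
-/

set_option autoImplicit false
set_option linter.unusedSectionVars false

open AlgebraicCurve IsDedekindDomain UniqueFactorizationMonoid

namespace Fermat.Agent.Lib.FFSep

section Local

variable {K F F' : Type*} [Field K] [Field F] [Field F'] [Algebra K F] [Algebra K F']
  [Algebra F F'] [IsScalarTower K F F'] [FiniteDimensional F F'] [Algebra.IsSeparable F F']
variable (v : Place K F)

/-! #### Char-free replacement of `Ideal.relNorm_eq_pow_of_isMaximal` (which needs a perfect
base field): count dimensions of `S ⧸ (x)` over `K` in two ways. -/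

/-- the `K`-algebra structure on the integral closure -/
@[reducible] def algKIntCl : Algebra K (intCl F' v) :=
  ((algebraMap v.toValuationSubring (intCl F' v)).comp
    (algebraMap K v.toValuationSubring)).toAlgebra

theorem isScalarTower_K_O_intCl :
    letI := algKIntCl (F' := F') v
    IsScalarTower K v.toValuationSubring (intCl F' v) :=
  letI := algKIntCl (F' := F') v
  IsScalarTower.of_algebraMap_eq fun _ => rfl

theorem intCl_not_isField : ¬ IsField (intCl F' v) := by
  intro h
  have hint : Algebra.IsIntegral v.toValuationSubring (intCl F' v) := inferInstance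
  have := isField_of_isIntegral_of_isField (algebraMap_O_intCl_injective (F' := F') v) h
  exact (IsDiscreteValuationRing.not_isField v.toValuationSubring) this

/-- all residue fields of the integral closure are `K` -/
theorem residueTrivial_intCl (hdeg' : ∀ w : Place K F', w.deg = 1) :
    letI := algKIntCl (F' := F') v
    Fermat.Agent.S37.H577.ResidueTrivial K (intCl F' v) := by
  letI := algKIntCl (F' := F') v
  intro 𝔭 h𝔭 z
  obtain ⟨s, rfl⟩ := Ideal.Quotient.mk_surjective z
  have hne : 𝔭 ≠ ⊥ := Ring.ne_bot_of_isMaximal_of_not_isField h𝔭 (intCl_not_isField v)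
  let q : HeightOneSpectrum (intCl F' v) := ⟨𝔭, h𝔭.isPrime, hne⟩
  obtain ⟨c, hc⟩ := Fermat.Agent.Lib.RR.exists_const_sub (placeOf v q) (hdeg' _)
    (ord_placeOf_coe_nonneg v q s)
  refine ⟨c, ?_⟩
  have hmem : s - algebraMap K (intCl F' v) c ∈ 𝔭 := by
    show s - algebraMap K (intCl F' v) c ∈ q.asIdeal
    rw [mem_asIdeal_iff_ord]
    have hcoe : ((s - algebraMap K (intCl F' v) c : intCl F' v) : F')
        = (s : F') - algebraMap K F' c := by
      rw [IsScalarTower.algebraMap_apply K F F']
      rfl
    rcases hc with hc | hc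
    · left
      apply Subtype.ext
      rw [hcoe]
      exact hc
    · right
      rw [hcoe]
      exact hc
  rw [← Ideal.Quotient.mk_algebraMap]
  exact ((Ideal.Quotient.mk_eq_mk_iff_sub_mem _ _).mpr hmem).symm

omit [Algebra K F'] [IsScalarTower K F F'] [FiniteDimensional F F'] [Algebra.IsSeparable F F']
  [Algebra F F'] in
/-- the residue field of a place of degree one is `K` -/
theorem residueTrivial_O (hdeg : v.deg = 1) :
    Fermat.Agent.S37.H577.ResidueTrivial K v.toValuationSubring := by
  intro 𝔭 h𝔭 z
  obtain ⟨s, rfl⟩ := Ideal.Quotient.mk_surjective z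
  have h𝔭' : 𝔭 = IsLocalRing.maximalIdeal v.toValuationSubring := IsLocalRing.eq_maximalIdeal h𝔭
  subst h𝔭'
  obtain ⟨c, hc⟩ := Fermat.Agent.Lib.RR.exists_const_sub v hdeg
    ((Fermat.Agent.S24.FF.mem_iff_ord_nonneg v).mp s.2)
  refine ⟨c, ?_⟩
  have hmem : s - algebraMap K v.toValuationSubring c ∈
      IsLocalRing.maximalIdeal v.toValuationSubring := by
    rcases hc with hc | hc
    · have : s - algebraMap K v.toValuationSubring c = 0 := Subtype.ext hc
      rw [this]
      exact zero_mem _
    · rw [IsLocalRing.mem_maximalIdeal, mem_nonunits_iff]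
      intro hu
      have h0 := v.ord_coe_unit hu.unit
      rw [IsUnit.unit_spec] at h0
      have h1 : ((s - algebraMap K v.toValuationSubring c : v.toValuationSubring) : F)
          = (s : F) - algebraMap K F c := rfl
      rw [h1] at h0
      omega
  rw [← Ideal.Quotient.mk_algebraMap]
  exact ((Ideal.Quotient.mk_eq_mk_iff_sub_mem _ _).mpr hmem).symm

omit [Algebra K F'] [IsScalarTower K F F'] [FiniteDimensional F F'] [Algebra.IsSeparable F F']
  [Algebra F F'] in
/-- in the discrete valuation ring `O_v` all prime factors are the maximal ideal -/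
theorem card_normalizedFactors_O (I : Ideal v.toValuationSubring) (hI : I ≠ ⊥) :
    Multiset.card (normalizedFactors I) = multiplicity (pv v) I := by
  have hp : Prime (pv v) :=
    Ideal.prime_of_isPrime (pv_ne_bot v) (IsLocalRing.maximalIdeal.isMaximal _).isPrime
  have hcount : multiplicity (pv v) I = (normalizedFactors I).count (pv v) := by
    rw [multiplicity_eq_of_emultiplicity_eq_some
      (emultiplicity_eq_count_normalizedFactors hp.irreducible hI), normalize_eq]
  rw [hcount]
  symm
  rw [Multiset.count_eq_card]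
  intro P hP
  rw [Ideal.mem_normalizedFactors_iff hI] at hP
  have hPne : P ≠ ⊥ := fun h => hI (le_bot_iff.mp (h ▸ hP.2))
  exact (IsLocalRing.eq_maximalIdeal (hP.1.isMaximal hPne)).symm

omit [Algebra K F'] [IsScalarTower K F F'] [FiniteDimensional F F'] [Algebra.IsSeparable F F']
  [Algebra F F'] in
/-- `dim_K O_v ⧸ (a) = ord_v a` at a place of degree one -/
theorem finrank_quotient_span_O (hdeg : v.deg = 1) (a : v.toValuationSubring) (ha : a ≠ 0) :
    (Module.finrank K (v.toValuationSubring ⧸ Ideal.span {a}) : ℤ) = v.ord (a : F) := by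
  have hI : Ideal.span {a} ≠ (⊥ : Ideal v.toValuationSubring) := by
    rw [Ne, Ideal.span_singleton_eq_bot]
    exact ha
  rw [Fermat.Agent.S37.H577.finrank_quotient_eq_card (residueTrivial_O v hdeg) _ hI,
    card_normalizedFactors_O v _ hI, ord_coe_eq_multiplicity v a ha]

theorem sum_ord_coe_eq_ord_intNorm [Fintype (HeightOneSpectrum (intCl F' v))]
    (hdeg : v.deg = 1) (hdeg' : ∀ w : Place K F', w.deg = 1) (x : intCl F' v) (hx : x ≠ 0) :
    ∑ q : HeightOneSpectrum (intCl F' v), (placeOf v q).ord (x : F')
      = v.ord ((Algebra.intNorm v.toValuationSubring (intCl F' v) x : v.toValuationSubring) : F) := by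
  classical
  letI := algKIntCl (F' := F') v
  haveI := isScalarTower_K_O_intCl (F' := F') v
  have hI : Ideal.span {x} ≠ (⊥ : Ideal (intCl F' v)) := by
    rw [Ne, Ideal.span_singleton_eq_bot]
    exact hx
  -- left hand side = number of prime factors of `(x)`
  have hL : ∑ q : HeightOneSpectrum (intCl F' v), (placeOf v q).ord (x : F')
      = (Multiset.card (normalizedFactors (Ideal.span {x} : Ideal (intCl F' v))) : ℤ) := by
    rw [← sum_count_eq_card v _ hI]
    push_cast
    refine Finset.sum_congr rfl fun q _ => ?_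
    rw [ord_placeOf_coe_eq_multiplicity v q x hx, multiplicity_eq_count v q _ hI]
  -- = dim_K S/(x)
  have hdim := Fermat.Agent.S37.H577.finrank_quotient_eq_card
    (residueTrivial_intCl (F' := F') v hdeg') _ hI
  -- Smith normal form
  let b := Module.Free.chooseBasis v.toValuationSubring (intCl F' v)
  have hsm : ∀ i, Ideal.smithCoeffs b _ hI i ≠ 0 := fun i => Ideal.smithCoeffs_ne_zero b _ hI i
  haveI : ∀ i, Module.Finite K (v.toValuationSubring ⧸
      Ideal.span ({Ideal.smithCoeffs b _ hI i} : Set v.toValuationSubring)) := fun i =>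
    Fermat.Agent.S37.H577.finite_quotient (residueTrivial_O v hdeg) _ (by
      rw [Ne, Ideal.span_singleton_eq_bot]
      exact hsm i)
  have hsum := Ideal.finrank_quotient_eq_sum (F := K) (I := Ideal.span {x}) hI b
  have hassoc := associated_norm_prod_smith b hx
  have hnorm : Algebra.intNorm v.toValuationSubring (intCl F' v) x
      = Algebra.norm v.toValuationSubring x := by
    rw [Algebra.intNorm_eq_norm]
  obtain ⟨u, hu⟩ := hassoc.symm
  have hprod0 : (∏ i, Ideal.smithCoeffs b _ hI i) ≠ 0 :=
    Finset.prod_ne_zero_iff.mpr fun i _ => hsm i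
  have hordprod : ∀ (s : Finset (Module.Free.ChooseBasisIndex v.toValuationSubring (intCl F' v))),
      (∏ i ∈ s, ((Ideal.smithCoeffs b _ hI i : v.toValuationSubring) : F)) ≠ 0 ∧
      v.ord (∏ i ∈ s, ((Ideal.smithCoeffs b _ hI i : v.toValuationSubring) : F))
        = ∑ i ∈ s, v.ord ((Ideal.smithCoeffs b _ hI i : v.toValuationSubring) : F) := by
    intro s
    induction s using Finset.induction_on with
    | empty => simp
    | insert a s ha ih =>
      rw [Finset.prod_insert ha, Finset.sum_insert ha]
      have ha0 : ((Ideal.smithCoeffs b _ hI a : v.toValuationSubring) : F) ≠ 0 :=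
        fun h => hsm a (Subtype.ext h)
      exact ⟨mul_ne_zero ha0 ih.1, by rw [v.ord_mul ha0 ih.1, ih.2]⟩
  have e1 : (((∏ i, Ideal.smithCoeffs b _ hI i) * (u : v.toValuationSubring) :
      v.toValuationSubring) : F)
      = (∏ i, ((Ideal.smithCoeffs b _ hI i : v.toValuationSubring) : F)) *
        ((u : v.toValuationSubring) : F) := by
    push_cast
    rfl
  have hu' : Algebra.norm v.toValuationSubring x
      = (∏ i, Ideal.smithCoeffs b _ hI i) * (u : v.toValuationSubring) := by
    exact hu.symm
  rw [hL, ← hdim, hsum, hnorm, hu', e1,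
    v.ord_mul (hordprod Finset.univ).1 (fun h => u.ne_zero (Subtype.ext h)), v.ord_coe_unit u,
    add_zero, (hordprod Finset.univ).2]
  push_cast
  refine Finset.sum_congr rfl fun i _ => ?_
  exact finrank_quotient_span_O v hdeg _ (hsm i)

omit [FiniteDimensional F F'] [Algebra.IsSeparable F F'] [Algebra K F'] [IsScalarTower K F F'] [Algebra F F'] in
theorem ord_div' (u : Place K F) {f g : F} (hf : f ≠ 0) (hg : g ≠ 0) :
    u.ord (f / g) = u.ord f - u.ord g := by
  rw [div_eq_mul_inv, u.ord_mul hf (inv_ne_zero hg), u.ord_inv]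
  ring

theorem sum_ord_eq_ord_norm_of_mem (hdeg : v.deg = 1) (hdeg' : ∀ w : Place K F', w.deg = 1)
    (s : Finset (Place K F')) (hs : ∀ w, w ∈ s ↔ w.restrict F = v)
    (x : intCl F' v) (hx : x ≠ 0) :
    ∑ w ∈ s, w.ord (x : F') = v.ord (Algebra.norm F (x : F')) := by
  let _ : Fintype (HeightOneSpectrum (intCl F' v)) := Fintype.ofFinite _
  have h1 := sum_ord_coe_eq_ord_intNorm v hdeg hdeg' x hx
  have h2 : ((Algebra.intNorm v.toValuationSubring (intCl F' v) x : v.toValuationSubring) : F)
      = Algebra.norm F (x : F') :=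
    Algebra.algebraMap_intNorm (A := v.toValuationSubring) (K := F) (L := F')
      (B := intCl F' v) x
  rw [← h2, ← h1]
  symm
  refine Finset.sum_bij (fun q _ => placeOf v q) ?_ ?_ ?_ ?_
  · intro q _
    exact (hs _).mpr (restrict_placeOf v _)
  · intro q _ q' _ h
    exact placeOf_injective v h
  · intro w hw
    obtain ⟨q, hq⟩ := exists_placeOf_eq v w ((hs w).mp hw)
    exact ⟨q, Finset.mem_univ _, hq⟩
  · intro q _
    rfl

/-- **Local norm formula** `∑_{w | v} ord_w(g) = ord_v(N_{F'/F} g)`. -/
theorem sum_ord_eq_ord_norm (hdeg : v.deg = 1) (hdeg' : ∀ w : Place K F', w.deg = 1)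
    (s : Finset (Place K F')) (hs : ∀ w, w ∈ s ↔ w.restrict F = v)
    (g : F') (hg : g ≠ 0) :
    ∑ w ∈ s, w.ord g = v.ord (Algebra.norm F g) := by
  obtain ⟨a, b, hb, rfl⟩ := IsFractionRing.div_surjective (A := intCl F' v) g
  have hb0 : b ≠ 0 := nonZeroDivisors.ne_zero hb
  have ha0 : a ≠ 0 := by
    rintro rfl
    simp at hg
  have ha' : (a : F') ≠ 0 := fun h => ha0 (Subtype.ext h)
  have hb' : (b : F') ≠ 0 := fun h => hb0 (Subtype.ext h)
  have hcoea : algebraMap (intCl F' v) F' a = (a : F') := rfl
  have hcoeb : algebraMap (intCl F' v) F' b = (b : F') := rfl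
  have hnorm : Algebra.norm F ((a : F') / (b : F'))
      = Algebra.norm F (a : F') / Algebra.norm F (b : F') := by
    rw [eq_div_iff (Algebra.norm_ne_zero_iff.mpr hb'), ← map_mul, div_mul_cancel₀ _ hb']
  rw [hcoea, hcoeb, hnorm,
    ord_div' v (Algebra.norm_ne_zero_iff.mpr ha') (Algebra.norm_ne_zero_iff.mpr hb'),
    ← sum_ord_eq_ord_norm_of_mem v hdeg hdeg' s hs a ha0,
    ← sum_ord_eq_ord_norm_of_mem v hdeg hdeg' s hs b hb0, ← Finset.sum_sub_distrib]
  refine Finset.sum_congr rfl fun w _ => ?_
  exact ord_div' w ha' hb'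

end Local

end Fermat.Agent.Lib.FFSep
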